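/-
P-CFT, row 936 SD-BDNAT (helper44): the boundary classes `bdRange 𝔄 v M`
(the image of `Z²(Γ_v, M) → H_c³(M)`, `a ↦ [(0, a at v)]`) are natural in the coefficients.
-/
import Fermat.Agent.H13.Cft.StepD3

set_option autoImplicit false

universe u

open CategoryTheory

namespace Fermat.Agent.H44.SD

open Fermat.Agent.H13.Cft Fermat.Agent.H53 Fermat.Agent.H34 Fermat.Agent.H19 Fermat.Agent.H77

section

variable {k G : Type u} [Field k] [Group G] (𝔄 : ArithDatum k G)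

/-- the local map at `v` induced by a morphism of coefficients, on level cochains -/
noncomputable def bdLocMap (v : 𝔄.ι) {M M' : Rep.{u} k G} (f : M ⟶ M') (n : ℕ) :
    lvlCochains (𝔄.lvlv v) (Rep.res (𝔄.loc v) M) n →ₗ[k]
      lvlCochains (𝔄.lvlv v) (Rep.res (𝔄.loc v) M') n :=
  ((lvlMap (𝔄.lvlv v) ((Rep.resFunctor (𝔄.loc v)).map f)).f n).hom

/-- the local map commutes with the differentials -/
theorem bdLocMap_d (v : 𝔄.ι) {M M' : Rep.{u} k G} (f : M ⟶ M') (n : ℕ)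
    (a : lvlCochains (𝔄.lvlv v) (Rep.res (𝔄.loc v) M) n) :
    lvlD (𝔄.lvlv v) (Rep.res (𝔄.loc v) M') n (bdLocMap 𝔄 v f n a)
      = bdLocMap 𝔄 v f (n + 1) (lvlD (𝔄.lvlv v) (Rep.res (𝔄.loc v) M) n a) := by
  have h := hapi_comp_apply _ _ _
    ((lvlMap (𝔄.lvlv v) ((Rep.resFunctor (𝔄.loc v)).map f)).comm n (n + 1)) a
  rw [← frc_lvl_d_apply, ← frc_lvl_d_apply]
  have h2 := hapi_comp_apply
    ((lvlComplex (𝔄.lvlv v) (Rep.res (𝔄.loc v) M)).d n (n + 1))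
    ((lvlMap (𝔄.lvlv v) ((Rep.resFunctor (𝔄.loc v)).map f)).f (n + 1)) _ rfl a
  exact h.trans h2.symm

/-- the product of the local maps sends the cochain supported at `v` to the cochain supported
at `v` -/
theorem locMap_frcLocSingle (v : 𝔄.ι) {M M' : Rep.{u} k G} (f : M ⟶ M') (n : ℕ)
    (a : lvlCochains (𝔄.lvlv v) (Rep.res (𝔄.loc v) M) n) :
    ((locMap 𝔄 f).f n).hom (frcLocSingle 𝔄 M v n a)
      = frcLocSingle 𝔄 M' v n (bdLocMap 𝔄 v f n a) := by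
  classical
  refine frc_loc_ext 𝔄 M' fun w => ?_
  rw [frcLocOut_single]
  exact Pi.apply_single (fun w => bdLocMap 𝔄 w f n) (fun w => map_zero _) v a w

end

/-- the boundary class of a local cocycle at `v`, as the class of `(0, a at v)` -/
theorem bd_apply_eq {k G : Type u} [Field k] [Group G] (𝔄 : ArithDatum k G) (v : 𝔄.ι)
    (M : Rep.{u} k G) (a : LinearMap.ker (lvlD (𝔄.lvlv v) (Rep.res (𝔄.loc v) M) 2))
    (h0 : ((coneShift (resTot 𝔄 M)).d 3 4).hom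
      ((0, frcLocSingle 𝔄 M v 2 a.1) : (lvlComplex 𝔄.lvl M).X 3 × (locComplex 𝔄 M).X 2) = 0) :
    (coneBdCocycles (resTot 𝔄 M) 2 ∘ₗ locSingleCocycles 𝔄 M v 2) a
      = hMk (coneShift (resTot 𝔄 M)) 3
          ((0, frcLocSingle 𝔄 M v 2 a.1) : (lvlComplex 𝔄.lvl M).X 3 × (locComplex 𝔄 M).X 2)
          h0 := rfl

/-- **[BD-NAT]** The boundary classes are natural in the coefficients. -/
theorem bdRangeNat : BdRangeNatStatement.{u} := by
  intro k G _ _ 𝔄 v M M' f x hx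
  obtain ⟨a, rfl⟩ := hx
  have ha : lvlD (𝔄.lvlv v) (Rep.res (𝔄.loc v) M) 2 a.1 = 0 := LinearMap.mem_ker.1 a.2
  have ha' : bdLocMap 𝔄 v f 2 a.1 ∈
      LinearMap.ker (lvlD (𝔄.lvlv v) (Rep.res (𝔄.loc v) M') 2) := by
    rw [LinearMap.mem_ker, bdLocMap_d, ha, map_zero]
  have h0 : ((coneShift (resTot 𝔄 M)).d 3 4).hom
      ((0, frcLocSingle 𝔄 M v 2 a.1) : (lvlComplex 𝔄.lvl M).X 3 × (locComplex 𝔄 M).X 2) = 0 :=
    cone_inr_cocycle (resTot 𝔄 M) 2 _ (by rw [frcLocSingle_d, ha, map_zero])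
  have h0' : ((coneShift (resTot 𝔄 M')).d 3 4).hom
      ((0, frcLocSingle 𝔄 M' v 2 (bdLocMap 𝔄 v f 2 a.1)) :
        (lvlComplex 𝔄.lvl M').X 3 × (locComplex 𝔄 M').X 2) = 0 :=
    cone_inr_cocycle (resTot 𝔄 M') 2 _
      (by rw [frcLocSingle_d, LinearMap.mem_ker.1 ha', map_zero])
  refine ⟨⟨bdLocMap 𝔄 v f 2 a.1, ha'⟩, ?_⟩
  refine (bd_apply_eq 𝔄 v M' ⟨bdLocMap 𝔄 v f 2 a.1, ha'⟩ h0').trans ?_
  refine Eq.trans ?_ (congrArg (HomologicalComplex.homologyMap ((ccFunctor 𝔄).map f) 3).hom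
    (bd_apply_eq 𝔄 v M a h0)).symm
  refine Eq.trans ?_ (hapi_homologyMap_hMk' (coneShift (resTot 𝔄 M)) 3
    (coneShift (resTot 𝔄 M')) (ccMap 𝔄 f) _ h0).symm
  refine hapi_hMk_congr _ 3 ?_ _ _
  show ((0, frcLocSingle 𝔄 M' v 2 (bdLocMap 𝔄 v f 2 a.1)) :
      (lvlComplex 𝔄.lvl M').X 3 × (locComplex 𝔄 M').X 2)
    = ((((lvlMap 𝔄.lvl f).f 3).hom (0 : (lvlComplex 𝔄.lvl M).X 3)),
        ((locMap 𝔄 f).f 2).hom (frcLocSingle 𝔄 M v 2 a.1))
  rw [map_zero, locMap_frcLocSingle]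

end Fermat.Agent.H44.SD
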